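import Fermat.Agent.DecompositionGroups.Bound
import Mathlib.Algebra.BigOperators.Associated
import Mathlib.Analysis.SpecialFunctions.Log.Basic
import Mathlib.NumberTheory.NumberField.Discriminant.Different

/-!
# Serre's bound for the discriminant of a Galois number field

As the ramification index divides the degree `n`, the different times the product of the ramified
primes divides `n` times the product of the ramified prime numbers. Taking norms, `|d|` divides
`n ^ n` times the power `n - 1` of that product.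
-/

set_option autoImplicit false
set_option linter.style.haveILetI false

noncomputable section

namespace FA.TameCompositum

open NumberField Finset FA.HilbertDifferent FA.DecompositionGroups

section Relative

variable (K : Type*) {L : Type*} [Field K] [NumberField K] [Field L] [NumberField L] [Algebra K L]
  [IsGalois K L]

/-- The exponent of the different, with the degree in place of `e`. -/
theorem emultiplicity_different_add_one_le (P : Ideal (𝓞 L)) [hP : P.IsMaximal] :
    emultiplicity P (differentIdeal (𝓞 K) (𝓞 L)) + 1 ≤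
      (Nat.card (P.inertia (L ≃ₐ[K] L)) : ℕ∞) +
        emultiplicity P (Ideal.span {(Module.finrank K L : 𝓞 L)}) := by
  have he : 0 < Nat.card (P.inertia (L ≃ₐ[K] L)) := Nat.card_pos
  refine (add_le_add_left (dedekind_hensel_bound K P).2 1).trans ?_
  rw [add_right_comm, ← Nat.cast_add_one, Nat.sub_add_cancel he]
  refine add_le_add_right (emultiplicity_le_emultiplicity_of_dvd_right ?_) _
  rw [Ideal.dvd_iff_le, Ideal.span_singleton_le_span_singleton, ← IsGalois.card_aut_eq_finrank K L]
  exact map_dvd (Nat.castRingHom (𝓞 L)) (Subgroup.card_subgroup_dvd_card _)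

end Relative

variable (L : Type*) [Field L] [NumberField L] [IsGalois ℚ L]

omit [IsGalois ℚ L] in
theorem absNorm_differentIdeal_rat :
    Ideal.absNorm (differentIdeal (𝓞 ℚ) (𝓞 L)) = (discr L).natAbs := by
  rw [natAbs_discr_eq_absNorm_differentIdeal_mul_natAbs_discr_pow ℚ (𝓞 ℚ) L (𝓞 L),
    Rat.numberField_discr, Int.natAbs_one, one_pow, mul_one]

omit [IsGalois ℚ L] in
theorem absNorm_span_natCast (m : ℕ) :
    Ideal.absNorm (Ideal.span {(m : 𝓞 L)}) = m ^ Module.finrank ℚ L := by
  rw [Ideal.absNorm_span_singleton, ← map_natCast (algebraMap ℤ (𝓞 L)), Algebra.norm_algebraMap,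
    RingOfIntegers.rank, Int.natAbs_pow, Int.natAbs_natCast]

/-- **Serre's bound.** -/
theorem natAbs_discr_dvd :
    (discr L).natAbs ∣ Module.finrank ℚ L ^ Module.finrank ℚ L *
      (∏ p ∈ (discr L).natAbs.primeFactors, p) ^ (Module.finrank ℚ L - 1) := by
  classical
  set d := (discr L).natAbs
  set n := Module.finrank ℚ L
  set π := ∏ p ∈ d.primeFactors, p
  have hn : 0 < n := Module.finrank_pos
  have hd : d ≠ 0 := Int.natAbs_ne_zero.2 (discr_ne_zero L)
  have hπ : 0 < π := prod_pos fun p hp => (Nat.prime_of_mem_primeFactors hp).pos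
  set D := differentIdeal (𝓞 ℚ) (𝓞 L)
  have hDN : Ideal.absNorm D = d := absNorm_differentIdeal_rat L
  -- a prime above each ramified prime number
  have hex : ∀ p : d.primeFactors, ∃ P : Ideal (𝓞 L), P.IsMaximal ∧ ((p : ℕ) : 𝓞 L) ∈ P := by
    rintro ⟨p, hp⟩
    have h : Ideal.span {((p : ℕ) : 𝓞 L)} ≠ ⊤ := fun h => by
      have h1 := congrArg Ideal.absNorm h
      rw [absNorm_span_natCast, Ideal.absNorm_top] at h1
      exact (Nat.prime_of_mem_primeFactors hp).ne_one ((Nat.pow_eq_one.1 h1).resolve_right hn.ne')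
    obtain ⟨P, hP, hle⟩ := Ideal.exists_le_maximal _ h
    exact ⟨P, hP, hle (Ideal.mem_span_singleton_self _)⟩
  choose P₀ hP₀ hpP₀ using hex
  set R := ∏ P ∈ univ.image P₀, P
  have hR0 : R ≠ 0 := prod_ne_zero_iff.2 fun P hP => by
    obtain ⟨p, -, rfl⟩ := mem_image.1 hP
    haveI := hP₀ p
    exact ne_bot_of_isMaximal _
  have hRπ : π ∣ Ideal.absNorm R := by
    refine Finset.prod_primes_dvd _ (fun p hp => (Nat.prime_of_mem_primeFactors hp).prime)
      fun p hp => ?_
    refine dvd_trans ?_ (map_dvd Ideal.absNorm (dvd_prod_of_mem _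
      (mem_image_of_mem P₀ (mem_univ (⟨p, hp⟩ : d.primeFactors)))))
    have h := map_dvd Ideal.absNorm (Ideal.dvd_span_singleton.2 (hpP₀ ⟨p, hp⟩))
    rw [absNorm_span_natCast] at h
    obtain ⟨j, -, hj⟩ := (Nat.dvd_prime_pow (Nat.prime_of_mem_primeFactors hp)).1 h
    rw [hj]
    refine dvd_pow_self p fun hj0 => (hP₀ ⟨p, hp⟩).ne_top ?_
    rw [← Ideal.absNorm_eq_one_iff, hj, hj0, pow_zero]
  -- the main divisibility
  have hmain : D * R ∣ Ideal.span {((n * π : ℕ) : 𝓞 L)} := by
    refine (UniqueFactorizationMonoid.dvd_iff_emultiplicity_le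
      (mul_ne_zero differentIdeal_ne_bot hR0)).2 fun Q hQ => ?_
    haveI := (Ideal.isPrime_of_prime hQ).isMaximal hQ.ne_zero
    rw [emultiplicity_mul hQ, Nat.cast_mul, ← Ideal.span_singleton_mul_span_singleton,
      emultiplicity_mul hQ]
    have hR : emultiplicity Q R ≤ 1 := by
      rw [Finset.emultiplicity_prod hQ]
      refine le_trans (sum_le_sum (g := fun P => if P = Q then 1 else 0) fun P hP => ?_)
        (by rw [sum_ite_eq']; split_ifs <;> simp)
      obtain ⟨p, -, rfl⟩ := mem_image.1 hP
      haveI := hP₀ p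
      split_ifs with h
      · rw [h, (FiniteMultiplicity.of_prime_left hQ hQ.ne_zero).emultiplicity_self]
      · exact (emultiplicity_eq_zero.2 fun hd' => h
          ((hP₀ p).eq_of_le (Ideal.isPrime_of_prime hQ).ne_top (Ideal.dvd_iff_le.1 hd'))).le
    by_cases hex' : ∃ p ∈ d.primeFactors, (p : 𝓞 L) ∈ Q
    · obtain ⟨p, hp, hpQ⟩ := hex'
      refine (add_le_add le_rfl hR).trans ((emultiplicity_different_add_one_le ℚ Q).trans ?_)
      rw [add_comm]
      refine add_le_add le_rfl (le_trans ?_ (emultiplicity_le_emultiplicity_of_dvd_right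
        (Ideal.dvd_iff_le.2 (Ideal.span_singleton_le_span_singleton.2
          (map_dvd (Nat.castRingHom (𝓞 L)) (dvd_prod_of_mem _ hp))))))
      have hp0 : Ideal.span {(p : 𝓞 ℚ)} ≠ ⊥ := by
        rw [Ne, Ideal.span_singleton_eq_bot, Nat.cast_eq_zero]
        exact (Nat.prime_of_mem_primeFactors hp).ne_zero
      have h := emultiplicity_map ℚ Q hp0
      rw [Ideal.map_span, Set.image_singleton, map_natCast] at h
      simp only [Nat.coe_castRingHom, h]
      refine le_mul_of_one_le_right' ?_
      rw [← Nat.cast_one]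
      refine le_emultiplicity_of_pow_dvd ?_
      rw [pow_one, Ideal.dvd_span_singleton, Ideal.mem_comap, map_natCast]
      exact hpQ
    · push Not at hex'
      have hD : emultiplicity Q D = 0 := emultiplicity_eq_zero.2 fun h => by
        have h1 := map_dvd Ideal.absNorm h
        rw [hDN] at h1
        have hQ1 : Ideal.absNorm Q ≠ 1 := fun e =>
          (Ideal.isPrime_of_prime hQ).ne_top (Ideal.absNorm_eq_one_iff.1 e)
        obtain ⟨q, hq, hqQ⟩ := Nat.exists_prime_and_dvd hQ1
        refine hex' q (Nat.mem_primeFactors.2 ⟨hq, hqQ.trans h1, hd⟩) ?_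
        letI := Ideal.Quotient.field Q
        haveI : Finite (𝓞 L ⧸ Q) :=
          Ring.HasFiniteQuotients.finiteQuotient (ne_bot_of_isMaximal Q)
        haveI : Fintype (𝓞 L ⧸ Q) := Fintype.ofFinite _
        obtain ⟨r, hr⟩ := CharP.exists (𝓞 L ⧸ Q)
        obtain ⟨j, hr', hj⟩ := FiniteField.card (𝓞 L ⧸ Q) r
        rw [Ideal.absNorm_apply, Submodule.cardQuot_apply, Nat.card_eq_fintype_card, hj] at hqQ
        rw [(Nat.prime_dvd_prime_iff_eq hq hr').1 (hq.dvd_of_dvd_pow hqQ),
          ← Ideal.Quotient.eq_zero_iff_mem, map_natCast]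
        exact CharP.cast_eq_zero _ _
      have hR' : emultiplicity Q R = 0 := emultiplicity_eq_zero.2 fun h => by
        obtain ⟨P, hP, hdP⟩ := hQ.exists_mem_finset_dvd h
        obtain ⟨p, -, rfl⟩ := mem_image.1 hP
        exact hex' _ p.2 (Ideal.dvd_iff_le.1 hdP (hpP₀ p))
      rw [hD, hR', add_zero]
      exact zero_le
  have h := map_dvd Ideal.absNorm hmain
  rw [map_mul, hDN, absNorm_span_natCast, mul_pow,
    show π ^ n = π * π ^ (n - 1) by rw [← pow_succ', Nat.sub_add_cancel hn], mul_comm d,
    ← mul_assoc, mul_comm (n ^ n) π, mul_assoc] at h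
  exact Nat.dvd_of_mul_dvd_mul_left hπ ((mul_dvd_mul_right hRπ d).trans h)

/-- **The logarithm of the discriminant.** -/
theorem log_natAbs_discr_le :
    Real.log ((discr L).natAbs : ℝ) ≤
      ((Module.finrank ℚ L : ℝ) - 1) * ∑ p ∈ (discr L).natAbs.primeFactors, Real.log (p : ℝ) +
        (Module.finrank ℚ L : ℝ) * Real.log (Module.finrank ℚ L : ℝ) := by
  set n := Module.finrank ℚ L
  set π := ∏ p ∈ (discr L).natAbs.primeFactors, p
  have hn : 0 < n := Module.finrank_pos
  have hπ : 0 < π := prod_pos fun p hp => (Nat.prime_of_mem_primeFactors hp).pos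
  have hb : 0 < n ^ n * π ^ (n - 1) := mul_pos (pow_pos hn n) (pow_pos hπ _)
  refine (Real.log_le_log (Nat.cast_pos.2 (Int.natAbs_pos.2 (discr_ne_zero L)))
    (Nat.cast_le.2 (Nat.le_of_dvd hb (natAbs_discr_dvd L)))).trans_eq ?_
  push_cast
  rw [Real.log_mul (by positivity) (by positivity), Real.log_pow, Real.log_pow, Nat.cast_prod,
    Real.log_prod (fun p hp => Nat.cast_ne_zero.2 (Nat.prime_of_mem_primeFactors hp).ne_zero),
    Nat.cast_sub hn, Nat.cast_one]
  ring

end FA.TameCompositum

end
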