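import Fermat.Agent.DecompositionGroups.Consequences
import Mathlib.NumberTheory.RamificationInertia.Galois

/-!
# Abhyankar's lemma for Galois extensions of number fields

If `L` is generated by two Galois subextensions the inertia group at `P` embeds in the product of
theirs. If the first one is tame, `G 1` lives in the second, and as `G 0 / G 1` is cyclic of order
prime to `p` the order of `G 0` is the least common multiple of the two ramification indices.
-/

set_option autoImplicit false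
set_option linter.style.haveILetI false

noncomputable section

namespace FA.TameCompositum

open NumberField FA.HilbertDifferent
open scoped Pointwise

variable (K : Type*) {L : Type*} [Field K] [NumberField K] [Field L] [NumberField L] [Algebra K L]
  [IsGalois K L] (F : Type*) [Field F] [NumberField F] [Algebra K F] [Algebra F L]
  [IsScalarTower K F L] [IsGalois K F]

omit [NumberField K] [NumberField L] [IsGalois K L] [NumberField F] in
/-- Restriction commutes with the inclusion of integers. -/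
theorem algebraMap_restrict_smul (g : L ≃ₐ[K] L) (x : 𝓞 F) :
    algebraMap (𝓞 F) (𝓞 L) (AlgEquiv.restrictNormalHom F g • x) =
      g • algebraMap (𝓞 F) (𝓞 L) x := by
  refine RingOfIntegers.coe_injective (K := L) ?_
  exact AlgEquiv.restrictNormal_commutes g F (x : F)

omit [NumberField K] [NumberField L] [IsGalois K L] [NumberField F] in
theorem restrict_mem_inertia {P : Ideal (𝓞 L)} {g : L ≃ₐ[K] L}
    (hg : g ∈ P.inertia (L ≃ₐ[K] L)) :
    AlgEquiv.restrictNormalHom F g ∈ (P.under (𝓞 F)).inertia (F ≃ₐ[K] F) := fun x => by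
  show algebraMap (𝓞 F) (𝓞 L) (_ - x) ∈ P
  rw [map_sub, algebraMap_restrict_smul K F]
  exact hg _

/-- The restriction to the inertia group. -/
def resInertia (P : Ideal (𝓞 L)) :
    P.inertia (L ≃ₐ[K] L) →* (P.under (𝓞 F)).inertia (F ≃ₐ[K] F) :=
  ((AlgEquiv.restrictNormalHom F).comp (P.inertia (L ≃ₐ[K] L)).subtype).codRestrict _
    fun g => restrict_mem_inertia K F g.2

omit [NumberField K] [NumberField L] [IsGalois K L] [NumberField F] in
theorem resInertia_eq_one_iff (P : Ideal (𝓞 L)) (g : P.inertia (L ≃ₐ[K] L)) :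
    resInertia K F P g = 1 ↔ AlgEquiv.restrictNormalHom F g.1 = 1 :=
  Subtype.ext_iff

/-- **The inertia group maps onto that of a Galois subextension.** -/
theorem surjective_resInertia (P : Ideal (𝓞 L)) [hP : P.IsMaximal] :
    Function.Surjective (resInertia K F P) := by
  haveI : IsGalois F L := IsGalois.tower_top_of_isGalois K F L
  haveI : (P.under (𝓞 K)).IsMaximal := Ideal.IsMaximal.under (𝓞 K) P
  haveI : (P.under (𝓞 F)).IsMaximal := Ideal.IsMaximal.under (𝓞 F) P
  haveI : (P.under (𝓞 F)).LiesOver (P.under (𝓞 K)) := ⟨(Ideal.under_under _).symm⟩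
  have hker : Nat.card (resInertia K F P).ker = Nat.card (P.inertia (L ≃ₐ[F] L)) := by
    symm
    refine Nat.card_eq_of_bijective (fun g => ⟨⟨g.1.restrictScalars K, g.2⟩, ?_⟩) ⟨?_, ?_⟩
    · rw [MonoidHom.mem_ker, resInertia_eq_one_iff]
      refine AlgEquiv.ext fun y => (algebraMap F L).injective ?_
      exact (AlgEquiv.restrictNormal_commutes _ F y).trans (g.1.commutes y)
    · intro g h e
      exact Subtype.ext (AlgEquiv.ext fun y =>
        AlgEquiv.congr_fun (congrArg (fun z => z.1.1) e) y)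
    · rintro ⟨⟨g, hg⟩, hgk⟩
      rw [MonoidHom.mem_ker, resInertia_eq_one_iff] at hgk
      exact ⟨⟨{ g with
        commutes' := fun y => by
          show g (algebraMap F L y) = algebraMap F L y
          rw [← AlgEquiv.restrictNormal_commutes g F y]
          exact congrArg (algebraMap F L) (AlgEquiv.congr_fun hgk y) }, hg⟩, rfl⟩
  have he := Ideal.ramificationIdx_tower (R := 𝓞 K) (P.under (𝓞 F)) P
  rw [← Ideal.ramificationIdxIn_eq_ramificationIdx (P.under (𝓞 K)) P (L ≃ₐ[K] L),
    ← Ideal.ramificationIdxIn_eq_ramificationIdx (P.under (𝓞 K)) (P.under (𝓞 F)) (F ≃ₐ[K] F),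
    ← Ideal.ramificationIdxIn_eq_ramificationIdx (P.under (𝓞 F)) P (L ≃ₐ[F] L),
    ← Ideal.card_inertia_eq_ramificationIdxIn (G := L ≃ₐ[K] L) (P.under (𝓞 K)) P,
    ← Ideal.card_inertia_eq_ramificationIdxIn (G := F ≃ₐ[K] F) (P.under (𝓞 K)) (P.under (𝓞 F)),
    ← Ideal.card_inertia_eq_ramificationIdxIn (G := L ≃ₐ[F] L) (P.under (𝓞 F)) P, ← hker,
    ← (resInertia K F P).ker.card_mul_index, Subgroup.index_ker, mul_comm] at he
  exact MonoidHom.range_eq_top.1 (Subgroup.eq_top_of_card_eq _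
    (Nat.eq_of_mul_eq_mul_right Nat.card_pos he))

variable (F' : Type*) [Field F'] [NumberField F'] [Algebra K F'] [Algebra F' L]
  [IsScalarTower K F' L] [IsGalois K F']

/-- **The ramification index in a compositum with a tame factor.** -/
theorem card_inertia_eq_lcm (P : Ideal (𝓞 L)) [hP : P.IsMaximal]
    (hgen : ∀ g : L ≃ₐ[K] L, AlgEquiv.restrictNormalHom F g = 1 →
      AlgEquiv.restrictNormalHom F' g = 1 → g = 1)
    (htame : (Nat.card ((P.under (𝓞 F)).inertia (F ≃ₐ[K] F)) : 𝓞 L ⧸ P) ≠ 0) :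
    Nat.card (P.inertia (L ≃ₐ[K] L)) =
      Nat.lcm (Nat.card ((P.under (𝓞 F)).inertia (F ≃ₐ[K] F)))
        (Nat.card ((P.under (𝓞 F')).inertia (F' ≃ₐ[K] F'))) := by
  classical
  set I := P.inertia (L ≃ₐ[K] L)
  set e₁ := Nat.card ((P.under (𝓞 F)).inertia (F ≃ₐ[K] F))
  set e₂ := Nat.card ((P.under (𝓞 F')).inertia (F' ≃ₐ[K] F'))
  have h1 := Subgroup.card_dvd_of_surjective _ (surjective_resInertia K F P)
  have h2 := Subgroup.card_dvd_of_surjective _ (surjective_resInertia K F' P)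
  refine Nat.dvd_antisymm ?_ (Nat.lcm_dvd h1 h2)
  letI := Ideal.Quotient.field P
  haveI : Finite (𝓞 L ⧸ P) := Ring.HasFiniteQuotients.finiteQuotient (ne_bot_of_isMaximal P)
  obtain ⟨p, hchar⟩ := CharP.exists (𝓞 L ⧸ P)
  haveI : Fact p.Prime := ⟨CharP.char_is_prime (𝓞 L ⧸ P) p⟩
  set W := (ramGroup K P 1).subgroupOf I
  have hle : ramGroup K P 1 ≤ I := (ramGroup_anti K P zero_le_one).trans (ramGroup_zero K P).le
  have hW : IsPGroup p W := (FA.DecompositionGroups.isPGroup_ramGroup_one K P p).of_equiv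
    (Subgroup.subgroupOfEquivOfLe hle).symm
  obtain ⟨k, hk⟩ := IsPGroup.iff_card.1 hW
  -- the wild part lives in the second factor
  have hwild : ∀ w ∈ W, resInertia K F P w = 1 := fun w hw => by
    obtain ⟨i, hi⟩ := hW ⟨w, hw⟩
    have hd : orderOf (resInertia K F P w) ∣ p ^ i := orderOf_dvd_of_pow_eq_one (by
      rw [← map_pow, show w ^ p ^ i = 1 from congrArg Subtype.val hi, map_one])
    obtain ⟨j, -, hj⟩ := (Nat.dvd_prime_pow (Fact.out : p.Prime)).1 hd
    rw [← orderOf_eq_one_iff, hj]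
    rcases Nat.eq_zero_or_pos j with rfl | hj0
    · exact pow_zero _
    · exfalso
      refine htame ((CharP.cast_eq_zero_iff (𝓞 L ⧸ P) p _).2 ((dvd_pow_self p hj0.ne').trans ?_))
      rw [← hj]
      exact orderOf_dvd_natCard _
  have hWd : Nat.card W ∣ e₂ := Subgroup.card_dvd_of_injective
    ((resInertia K F' P).comp W.subtype) fun a b e => by
      have e' : resInertia K F' P (a.1 * b.1⁻¹) = 1 := by
        rw [map_mul, map_inv, show resInertia K F' P a.1 = resInertia K F' P b.1 from e,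
          mul_inv_cancel]
      have := hgen (a.1 * b.1⁻¹).1 ((resInertia_eq_one_iff K F P _).1
        (hwild _ (W.mul_mem a.2 (W.inv_mem b.2)))) ((resInertia_eq_one_iff K F' P _).1 e')
      exact Subtype.ext (mul_inv_eq_one.1 (Subtype.ext this : a.1 * b.1⁻¹ = 1))
  -- the tame part has exponent dividing both
  have hmd : W.index ∣ Nat.lcm e₁ e₂ := by
    obtain ⟨hn, hcyc⟩ := FA.DecompositionGroups.isCyclic_inertia_quotient K P
    obtain ⟨q, hq⟩ := hcyc.exists_ofOrder_eq_natCard
    obtain ⟨g, rfl⟩ := QuotientGroup.mk'_surjective W q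
    rw [Subgroup.index, ← hq]
    refine orderOf_dvd_of_pow_eq_one ?_
    rw [← map_pow, show g ^ Nat.lcm e₁ e₂ = 1 from Subtype.ext (hgen _
      ((resInertia_eq_one_iff K F P _).1 ?_) ((resInertia_eq_one_iff K F' P _).1 ?_)), map_one]
    · rw [map_pow]
      obtain ⟨c, hc⟩ : e₁ ∣ Nat.lcm e₁ e₂ := Nat.dvd_lcm_left _ _
      rw [hc, pow_mul, pow_card_eq_one', one_pow]
    · rw [map_pow]
      obtain ⟨c, hc⟩ : e₂ ∣ Nat.lcm e₁ e₂ := Nat.dvd_lcm_right _ _
      rw [hc, pow_mul, pow_card_eq_one', one_pow]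
  rw [← W.card_mul_index]
  refine Nat.Coprime.mul_dvd_of_dvd_of_dvd ?_ (hWd.trans (Nat.dvd_lcm_right _ _)) hmd
  rw [hk]
  exact Nat.Coprime.pow_left _ (Nat.Coprime.symm (FA.DecompositionGroups.coprime_index K P p))

/-- **Abhyankar's lemma.** -/
theorem isUnramifiedAt_of_dvd (P : Ideal (𝓞 L)) [hP : P.IsMaximal]
    (hgen : ∀ g : L ≃ₐ[K] L, AlgEquiv.restrictNormalHom F g = 1 →
      AlgEquiv.restrictNormalHom F' g = 1 → g = 1)
    (htame : (Nat.card ((P.under (𝓞 F)).inertia (F ≃ₐ[K] F)) : 𝓞 L ⧸ P) ≠ 0)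
    (hdvd : Nat.card ((P.under (𝓞 F)).inertia (F ≃ₐ[K] F)) ∣
      Nat.card ((P.under (𝓞 F')).inertia (F' ≃ₐ[K] F'))) :
    Algebra.IsUnramifiedAt (𝓞 F') P := by
  have h := card_inertia_eq_lcm K F F' P hgen htame
  rw [Nat.lcm_eq_right hdvd] at h
  haveI : (P.under (𝓞 K)).IsMaximal := Ideal.IsMaximal.under (𝓞 K) P
  haveI : (P.under (𝓞 F')).IsMaximal := Ideal.IsMaximal.under (𝓞 F') P
  haveI : (P.under (𝓞 F')).LiesOver (P.under (𝓞 K)) := ⟨(Ideal.under_under _).symm⟩
  have he := Ideal.ramificationIdx_tower (R := 𝓞 K) (P.under (𝓞 F')) P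
  rw [← Ideal.ramificationIdxIn_eq_ramificationIdx (P.under (𝓞 K)) P (L ≃ₐ[K] L),
    ← Ideal.ramificationIdxIn_eq_ramificationIdx (P.under (𝓞 K)) (P.under (𝓞 F')) (F' ≃ₐ[K] F'),
    ← Ideal.card_inertia_eq_ramificationIdxIn (G := L ≃ₐ[K] L) (P.under (𝓞 K)) P,
    ← Ideal.card_inertia_eq_ramificationIdxIn (G := F' ≃ₐ[K] F') (P.under (𝓞 K))
      (P.under (𝓞 F')), h] at he
  exact Ideal.ramificationIdx_eq_one_iff.1
    (Nat.eq_of_mul_eq_mul_left Nat.card_pos (by rw [mul_one]; exact he.symm))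

omit [NumberField K] [NumberField L] [IsGalois K L] in
/-- Two fields generate `L` when no automorphism fixes both. -/
theorem eq_one_of_sup_eq_top (F₁ F₂ : IntermediateField K L) [IsGalois K F₁] [IsGalois K F₂]
    (h : F₁ ⊔ F₂ = ⊤) (g : L ≃ₐ[K] L) (h₁ : AlgEquiv.restrictNormalHom F₁ g = 1)
    (h₂ : AlgEquiv.restrictNormalHom F₂ g = 1) : g = 1 := by
  have hle : ⊤ ≤ IntermediateField.fixedField (Subgroup.zpowers g) := by
    rw [← h, sup_le_iff, IntermediateField.le_iff_le, IntermediateField.le_iff_le,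
      Subgroup.zpowers_le, Subgroup.zpowers_le, ← IntermediateField.restrictNormalHom_ker,
      ← IntermediateField.restrictNormalHom_ker]
    exact ⟨h₁, h₂⟩
  exact AlgEquiv.ext fun y =>
    hle (IntermediateField.mem_top (x := y)) ⟨g, Subgroup.mem_zpowers g⟩

end FA.TameCompositum

end
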